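import Mathlib

/-!
# S25, block E-e: multiplication of an invertible module by an ideal of a Dedekind domain
-/

set_option autoImplicit false
set_option linter.style.haveILetI false

noncomputable section

universe u

open TensorProduct

namespace Fermat.Agent.JTw

theorem isDedekindRing_of_ringEquiv {R S : Type*} [CommRing R] [CommRing S] [IsDomain R]
    [IsDedekindRing R] (e : R ≃+* S) : IsDomain S ∧ IsDedekindRing S := by
  haveI : IsDomain S := e.symm.toMulEquiv.isDomain R
  haveI : IsIntegrallyClosed S := IsIntegrallyClosed.of_equiv e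
  haveI : IsNoetherianRing S := isNoetherianRing_of_ringEquiv R e
  haveI : Ring.DimensionLEOne S := Ring.DimensionLEOne.of_ringEquiv e.symm
  exact ⟨inferInstance, { }⟩

/-- nonzero ideals of Dedekind domains are invertible modules -/
theorem invertible_ideal {R : Type*} [CommRing R] [IsDomain R] [IsDedekindRing R] (I : Ideal R)
    (hI : I ≠ ⊥) : Module.Invertible R I := by
  let K := FractionRing R
  have h1 : (I : FractionalIdeal (nonZeroDivisors R) K) * (I : FractionalIdeal _ K)⁻¹ = 1 :=
    FractionalIdeal.coe_ideal_mul_inv I hI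
  let w : (FractionalIdeal (nonZeroDivisors R) K)ˣ := Units.mkOfMulEqOne _ _ h1
  let v : (Submodule R K)ˣ := Units.map
    (FractionalIdeal.coeSubmoduleHom (nonZeroDivisors R) K).toMonoidHom w
  have hv : (v : Submodule R K) = Submodule.map (Algebra.linearMap R K) I := rfl
  have h2 : Module.Invertible R (v : Submodule R K) := inferInstance
  have e : (v : Submodule R K) ≃ₗ[R] I :=
    (Submodule.equivMapOfInjective (Algebra.linearMap R K)
      (IsFractionRing.injective R K) I).symm
  exact Module.Invertible.congr e

section Mul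

variable {k B R : Type*} [Field k] [CommRing B] [Algebra k B] [CommRing R] [Algebra k R]

/-- `B ⊗ R` is flat over `R`. -/
theorem flat_right : letI : Algebra R (B ⊗[k] R) :=
      (Algebra.TensorProduct.includeRight : R →ₐ[k] B ⊗[k] R).toRingHom.toAlgebra
    Module.Flat R (B ⊗[k] R) := by
  letI : Algebra R (B ⊗[k] R) :=
    (Algebra.TensorProduct.includeRight : R →ₐ[k] B ⊗[k] R).toRingHom.toAlgebra
  let e0 : (R ⊗[k] B) ≃ₐ[k] (B ⊗[k] R) := Algebra.TensorProduct.comm k R B
  let e : (R ⊗[k] B) ≃ₗ[R] (B ⊗[k] R) :=
    { e0 with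
      map_smul' := fun a x => by
        show e0 (a • x) = (algebraMap R (B ⊗[k] R) a) * e0 x
        have h1 : a • x = (a ⊗ₜ[k] (1 : B)) * x := Algebra.smul_def a x
        rw [h1, map_mul]
        rfl }
  exact Module.Flat.of_linearEquiv e.symm

/-- the product of an invertible `B ⊗ R`-module with an ideal of the Dedekind domain `R` is
invertible. -/
theorem invertible_of_range [IsDomain R] [IsDedekindRing R] (I : Ideal R) (hI : I ≠ ⊥)
    {V T : Type*} [AddCommGroup V] [Module (B ⊗[k] R) V] [AddCommGroup T] [Module (B ⊗[k] R) T]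
    (P : Submodule (B ⊗[k] R) V) (hP : Module.Invertible (B ⊗[k] R) P)
    (j : T →ₗ[B ⊗[k] R] V) (hj : Function.Injective j)
    (hrange : ∀ x : V, x ∈ LinearMap.range j ↔
      x ∈ AddSubgroup.closure {x | ∃ a ∈ I, ∃ p ∈ P, x = ((1 : B) ⊗ₜ[k] a) • p}) :
    Module.Invertible (B ⊗[k] R) T := by
  letI : Algebra R (B ⊗[k] R) :=
    (Algebra.TensorProduct.includeRight : R →ₐ[k] B ⊗[k] R).toRingHom.toAlgebra
  letI : Module R V := Module.compHom V
    (Algebra.TensorProduct.includeRight : R →ₐ[k] B ⊗[k] R).toRingHom
  have hsm : ∀ (a : R) (v : V), a • v = ((1 : B) ⊗ₜ[k] a) • v := fun _ _ => rfl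
  haveI : IsScalarTower R (B ⊗[k] R) V := ⟨fun a z v => by
    show (((1 : B) ⊗ₜ[k] a) * z) • v = ((1 : B) ⊗ₜ[k] a) • z • v
    rw [mul_smul]⟩
  haveI : Module.Invertible R I := invertible_ideal I hI
  haveI hflat : Module.Flat R (B ⊗[k] R) := flat_right
  haveI : Module.Flat R P := Module.Flat.trans R (B ⊗[k] R) P
  have hinv : Module.Invertible (B ⊗[k] R) (P ⊗[R] I) := inferInstance
  let f : P ⊗[R] I →ₗ[B ⊗[k] R] V := TensorProduct.AlgebraTensorModule.lift
    { toFun := fun p =>
        { toFun := fun a => (a : R) • (p : V)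
          map_add' := fun a b => by rw [Submodule.coe_add, add_smul]
          map_smul' := fun c a => by
            rw [RingHom.id_apply, Submodule.coe_smul, smul_eq_mul, mul_smul] }
      map_add' := fun p q => by
        ext a
        show (a : R) • ((p + q : P) : V) = _
        rw [Submodule.coe_add, smul_add]; rfl
      map_smul' := fun c p => by
        ext a
        show (a : R) • ((c • p : P) : V) = c • ((a : R) • (p : V))
        rw [Submodule.coe_smul, hsm, hsm, smul_smul, smul_smul, mul_comm] }
  have hf : ∀ (p : P) (a : I), f (p ⊗ₜ a) = (a : R) • (p : V) := fun p a => rfl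
  have hfinj : Function.Injective f := by
    have h1 : Function.Injective (I.subtype.lTensor P) :=
      Module.Flat.lTensor_preserves_injective_linearMap _ Subtype.val_injective
    have h2 : ∀ z, f z = ((TensorProduct.rid R P (I.subtype.lTensor P z) : P) : V) := by
      intro z
      induction z using TensorProduct.induction_on with
      | zero => rw [map_zero, map_zero, map_zero]; rfl
      | tmul p a =>
        rw [hf, LinearMap.lTensor_tmul, TensorProduct.rid_tmul]
        rfl
      | add x y hx hy => rw [map_add, hx, hy, map_add, map_add]; rfl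
    intro x y hxy
    rw [h2, h2] at hxy
    exact h1 ((TensorProduct.rid R P).injective (Subtype.ext hxy))
  have hfr : LinearMap.range f = LinearMap.range j := by
    ext x
    rw [hrange]
    constructor
    · rintro ⟨z, rfl⟩
      induction z using TensorProduct.induction_on with
      | zero => rw [map_zero]; exact AddSubgroup.zero_mem _
      | tmul p a =>
        rw [hf]
        exact AddSubgroup.subset_closure ⟨a, a.2, p, p.2, rfl⟩
      | add x y hx hy => rw [map_add]; exact AddSubgroup.add_mem _ hx hy
    · intro hx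
      refine AddSubgroup.closure_induction (p := fun x _ => x ∈ LinearMap.range f) ?_ ?_ ?_ ?_ hx
      · rintro _ ⟨a, ha, p, hp, rfl⟩
        exact ⟨(⟨p, hp⟩ : P) ⊗ₜ (⟨a, ha⟩ : I), rfl⟩
      · exact Submodule.zero_mem _
      · intro x y _ _ hx hy; exact Submodule.add_mem _ hx hy
      · intro x _ hx; exact Submodule.neg_mem _ hx
  let e1 := LinearEquiv.ofInjective f hfinj
  let e2 := LinearEquiv.ofInjective j hj
  exact Module.Invertible.congr (e1.trans ((LinearEquiv.ofEq _ _ hfr).trans e2.symm))

end Mul

end Fermat.Agent.JTw
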