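import Fermat.Agent.JTw.Defs
import Fermat.Agent.JTw.Inv
import Fermat.Agent.JGI.LD

/-!
# S25, block E-e: twists of line bundles are line bundles
-/

set_option autoImplicit false
set_option linter.style.haveILetI false

noncomputable section

universe u

open TensorProduct

namespace Fermat.Agent.JTw

open Fermat.Agent.JPC Fermat.Agent.JGI

variable {k : Type u} [Field k] {X : TwoChart k}

variable (X) in
theorem dedA0 : IsDomain X.A0 ∧ IsDedekindRing X.A0 := by
  obtain ⟨h1, h2⟩ := X.ded0 k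
  exact isDedekindRing_of_ringEquiv (Algebra.TensorProduct.lid k X.A0).toRingEquiv

variable (X) in
theorem dedA1 : IsDomain X.A1 ∧ IsDedekindRing X.A1 := by
  obtain ⟨h1, h2⟩ := X.ded1 k
  exact isDedekindRing_of_ringEquiv (Algebra.TensorProduct.lid k X.A1).toRingEquiv

/-- the ideal of `y` in `A0` -/
def I0 (y : X.A →ₐ[k] k) : Ideal X.A0 := RingHom.ker (y.comp X.A0.val)

/-- the ideal of `y` in `A1` -/
def I1 (y : X.A →ₐ[k] k) : Ideal X.A1 := RingHom.ker (y.comp X.A1.val)

theorem mem_I0 {y : X.A →ₐ[k] k} {a : X.A0} : a ∈ I0 y ↔ y (a : X.A) = 0 := Iff.rfl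

theorem mem_I1 {y : X.A →ₐ[k] k} {a : X.A1} : a ∈ I1 y ↔ y (a : X.A) = 0 := Iff.rfl

theorem ne_zero_of_basis {R : Type*} [CommRing R] [Algebra k R] {d : ℕ} (hd : 0 < d) {t : R}
    {b : Fin d → R}
    (hb : ∀ a, ∃! f : Fin d → Polynomial k, a = ∑ i, Polynomial.aeval t (f i) * b i)
    (p : Polynomial k) (hp : p ≠ 0) : Polynomial.aeval t p ≠ 0 := by
  classical
  intro h
  obtain ⟨f, -, hf⟩ := hb 0
  have h1 := hf 0 (by simp)
  have h2 := hf (fun _ => p) (by simp [h])
  have h3 := congrFun (h2.trans h1.symm) ⟨0, hd⟩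
  exact hp h3

theorem I0_ne (y : X.A →ₐ[k] k) : I0 y ≠ ⊥ := by
  intro h
  have h1 : Polynomial.aeval (t0 X) (Polynomial.X - Polynomial.C (y X.t)) ∈ I0 y := by
    rw [mem_I0, map_sub, Polynomial.aeval_X, Polynomial.aeval_C]
    show y ((X.t : X.A) - algebraMap k X.A (y X.t)) = 0
    rw [map_sub, AlgHom.commutes]
    exact sub_self _
  rw [h, Ideal.mem_bot] at h1
  exact ne_zero_of_basis X.d_pos (bb0_basis X) _ (Polynomial.X_sub_C_ne_zero _) h1

theorem I1_ne (y : X.A →ₐ[k] k) : I1 y ≠ ⊥ := by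
  intro h
  have h1 : Polynomial.aeval (t1 X)
      (Polynomial.X - Polynomial.C (y ((X.t⁻¹ : X.Aˣ) : X.A))) ∈ I1 y := by
    rw [mem_I1, map_sub, Polynomial.aeval_X, Polynomial.aeval_C]
    show y (((X.t⁻¹ : X.Aˣ) : X.A) - algebraMap k X.A (y ((X.t⁻¹ : X.Aˣ) : X.A))) = 0
    rw [map_sub, AlgHom.commutes]
    exact sub_self _
  rw [h, Ideal.mem_bot] at h1
  exact ne_zero_of_basis X.d_pos (bb1_basis X) _ (Polynomial.X_sub_C_ne_zero _) h1

variable {B : Type u} [CommRing B] [Algebra k B]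

theorem mem_mulSub (L : PreLD X B) (S : Set X.A) (N : Submodule B L.M) (x : L.M) :
    x ∈ L.mulSub S N ↔ x ∈ AddSubgroup.closure {x | ∃ a ∈ S, ∃ m ∈ N, x = a • m} := by
  constructor
  · intro hx
    refine Submodule.span_induction
      (p := fun x _ => x ∈ AddSubgroup.closure {x | ∃ a ∈ S, ∃ m ∈ N, x = a • m}) ?_ ?_ ?_ ?_ hx
    · intro x hx; exact AddSubgroup.subset_closure hx
    · exact AddSubgroup.zero_mem _
    · intro x y _ _ hx hy; exact AddSubgroup.add_mem _ hx hy
    · intro b x _ hx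
      refine AddSubgroup.closure_induction
        (p := fun x _ => b • x ∈ AddSubgroup.closure {x | ∃ a ∈ S, ∃ m ∈ N, x = a • m})
        ?_ ?_ ?_ ?_ hx
      · rintro _ ⟨a, ha, m, hm, rfl⟩
        exact AddSubgroup.subset_closure ⟨a, ha, b • m, N.smul_mem b hm, smul_comm _ _ _⟩
      · rw [smul_zero]; exact AddSubgroup.zero_mem _
      · intro x y _ _ hx hy; rw [smul_add]; exact AddSubgroup.add_mem _ hx hy
      · intro x _ hx; rw [smul_neg]; exact AddSubgroup.neg_mem _ hx
  · intro hx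
    refine AddSubgroup.closure_induction (p := fun x _ => x ∈ L.mulSub S N) ?_ ?_ ?_ ?_ hx
    · intro x hx; exact Submodule.subset_span hx
    · exact Submodule.zero_mem _
    · intro x y _ _ hx hy; exact Submodule.add_mem _ hx hy
    · intro x _ hx; exact Submodule.neg_mem _ hx

theorem mulSub_mono (L : PreLD X B) {S S' : Set X.A} (hS : S ⊆ S') {N N' : Submodule B L.M}
    (hN : N ≤ N') : L.mulSub S N ≤ L.mulSub S' N' := by
  refine Submodule.span_mono ?_
  rintro _ ⟨a, ha, m, hm, rfl⟩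
  exact ⟨a, hS ha, m, hN hm, rfl⟩

section Pt

variable (L : PreLD X B) (y : X.A →ₐ[k] k)

/-- the inclusion of the twist -/
def incl : (L.twistPt y).M →+ L.M := (L.mulSub {a | y a = 0} ⊤).subtype.toAddMonoidHom

theorem incl_injective : Function.Injective (incl L y) := Subtype.val_injective

theorem incl_smulA (a : X.A) (x : (L.twistPt y).M) : incl L y (a • x) = a • incl L y x := rfl

theorem incl_smulB (b : B) (x : (L.twistPt y).M) : incl L y (b • x) = b • incl L y x := rfl

theorem mem_range_incl {x : L.M} : (∃ z, incl L y z = x) ↔ x ∈ L.mulSub {a | y a = 0} ⊤ :=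
  ⟨fun ⟨z, hz⟩ => hz ▸ z.2, fun h => ⟨⟨x, h⟩, rfl⟩⟩

theorem mem_twist_M0 {z : (L.twistPt y).M} : z ∈ (L.twistPt y).M0 ↔
    incl L y z ∈ L.mulSub {a | a ∈ X.A0 ∧ y a = 0} L.M0 := Iff.rfl

theorem mem_twist_M1 {z : (L.twistPt y).M} : z ∈ (L.twistPt y).M1 ↔
    incl L y z ∈ L.mulSub {a | a ∈ X.A1 ∧ y a = 0} L.M1 := Iff.rfl

theorem incl_smul0 (s : B ⊗[k] X.A0) (x : (L.twistPt y).M) :
    incl L y (s • x) = s • incl L y x := by
  induction s using TensorProduct.induction_on with
  | zero => rw [zero_smul (B ⊗[k] X.A0) x, zero_smul (B ⊗[k] X.A0) (incl L y x), map_zero]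
  | tmul c a => rfl
  | add s t hs ht => rw [add_smul, add_smul, map_add, hs, ht]

theorem incl_smul1 (s : B ⊗[k] X.A1) (x : (L.twistPt y).M) :
    incl L y (s • x) = s • incl L y x := by
  induction s using TensorProduct.induction_on with
  | zero => rw [zero_smul (B ⊗[k] X.A1) x, zero_smul (B ⊗[k] X.A1) (incl L y x), map_zero]
  | tmul c a => rfl
  | add s t hs ht => rw [add_smul, add_smul, map_add, hs, ht]

/-- **Twisting by a point preserves line bundles.** -/
theorem isLine_twistPt (hL : L.IsLine) : (L.twistPt y).IsLine where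
  inv0 := by
    obtain ⟨h1, h2⟩ := dedA0 X
    let j : (L.twistPt y).M0' →ₗ[B ⊗[k] X.A0] L.M :=
      { toFun := fun z => incl L y (z : (L.twistPt y).M)
        map_add' := fun a b => rfl
        map_smul' := fun s z => incl_smul0 L y s _ }
    have hj : Function.Injective j := fun a b h => Subtype.ext (incl_injective L y h)
    refine invertible_of_range (B := B) (k := k) (R := X.A0) (V := L.M)
      (T := (L.twistPt y).M0') (I0 y) (I0_ne y) L.M0' hL.inv0 j hj ?_
    intro x
    have h3 : x ∈ LinearMap.range j ↔ x ∈ L.mulSub {a | a ∈ X.A0 ∧ y a = 0} L.M0 := by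
      constructor
      · rintro ⟨z, rfl⟩
        exact (mem_twist_M0 L y).mp z.2
      · intro hx
        obtain ⟨z, rfl⟩ := (mem_range_incl L y).mpr
          (mulSub_mono L (fun a ha => ha.2) le_top hx)
        exact ⟨⟨z, hx⟩, rfl⟩
    rw [h3, mem_mulSub]
    have h4 : {x : L.M | ∃ a ∈ {a | a ∈ X.A0 ∧ y a = 0}, ∃ m ∈ L.M0, x = a • m} =
        {x | ∃ a ∈ I0 y, ∃ p ∈ L.M0', x = ((1 : B) ⊗ₜ[k] a) • p} := by
      ext x
      constructor
      · rintro ⟨a, ⟨ha, hy⟩, m, hm, rfl⟩
        exact ⟨⟨a, ha⟩, hy, m, hm, by rw [PreLD.tmul_smul0, one_smul]⟩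
      · rintro ⟨a, ha, m, hm, rfl⟩
        exact ⟨a, ⟨a.2, ha⟩, m, hm, by rw [PreLD.tmul_smul0, one_smul]⟩
    rw [h4]
  inv1 := by
    obtain ⟨h1, h2⟩ := dedA1 X
    let j : (L.twistPt y).M1' →ₗ[B ⊗[k] X.A1] L.M :=
      { toFun := fun z => incl L y (z : (L.twistPt y).M)
        map_add' := fun a b => rfl
        map_smul' := fun s z => incl_smul1 L y s _ }
    have hj : Function.Injective j := fun a b h => Subtype.ext (incl_injective L y h)
    refine invertible_of_range (B := B) (k := k) (R := X.A1) (V := L.M)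
      (T := (L.twistPt y).M1') (I1 y) (I1_ne y) L.M1' hL.inv1 j hj ?_
    intro x
    have h3 : x ∈ LinearMap.range j ↔ x ∈ L.mulSub {a | a ∈ X.A1 ∧ y a = 0} L.M1 := by
      constructor
      · rintro ⟨z, rfl⟩
        exact (mem_twist_M1 L y).mp z.2
      · intro hx
        obtain ⟨z, rfl⟩ := (mem_range_incl L y).mpr
          (mulSub_mono L (fun a ha => ha.2) le_top hx)
        exact ⟨⟨z, hx⟩, rfl⟩
    rw [h3, mem_mulSub]
    have h4 : {x : L.M | ∃ a ∈ {a | a ∈ X.A1 ∧ y a = 0}, ∃ m ∈ L.M1, x = a • m} =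
        {x | ∃ a ∈ I1 y, ∃ p ∈ L.M1', x = ((1 : B) ⊗ₜ[k] a) • p} := by
      ext x
      constructor
      · rintro ⟨a, ⟨ha, hy⟩, m, hm, rfl⟩
        exact ⟨⟨a, ha⟩, hy, m, hm, by rw [PreLD.tmul_smul1, one_smul]⟩
      · rintro ⟨a, ha, m, hm, rfl⟩
        exact ⟨a, ⟨a.2, ha⟩, m, hm, by rw [PreLD.tmul_smul1, one_smul]⟩
    rw [h4]

end Pt

section Inf

variable (L : PreLD X B) (n : ℕ)

theorem twistInf_smul1 (s : B ⊗[k] X.A1) (x : L.M) :
    (s • (show (L.twistInf n).M from x)) = (show (L.twistInf n).M from s • x) := rfl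

/-- **Twisting at infinity preserves line bundles.** -/
theorem isLine_twistInf (hL : L.IsLine) : (L.twistInf n).IsLine where
  inv0 := hL.inv0
  inv1 := by
    haveI := hL.inv1
    have hcomm : ∀ (s : B ⊗[k] X.A1) (x : L.M), L.actA ((X.t : X.A) ^ n) (s • x) =
        s • L.actA ((X.t : X.A) ^ n) x := by
      intro s x
      induction s using TensorProduct.induction_on with
      | zero => rw [zero_smul (B ⊗[k] X.A1) x, zero_smul (B ⊗[k] X.A1) (L.actA _ x), map_zero]
      | tmul c a =>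
        rw [PreLD.tmul_smul1, PreLD.tmul_smul1, map_smul]
        congr 1
        exact smul_comm _ _ _
      | add s t hs ht => rw [add_smul, add_smul, map_add, hs, ht]
    have hinj : Function.Injective (L.actA ((X.t : X.A) ^ n)) := by
      intro a b hab
      have h1 := congrArg (fun m => (((X.t⁻¹ : X.Aˣ) : X.A) ^ n) • m) hab
      simp only [PreLD.actA_apply, ← mul_smul, ← mul_pow, Units.inv_mul, one_pow, one_smul] at h1
      exact h1
    let f : L.M1' →ₗ[B ⊗[k] X.A1] (L.twistInf n).M1' :=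
      { toFun := fun m => ⟨L.actA ((X.t : X.A) ^ n) m, ⟨m, m.2, rfl⟩⟩
        map_add' := fun a b => Subtype.ext (map_add _ _ _)
        map_smul' := fun s m => Subtype.ext (hcomm s m) }
    have hf : Function.Bijective f := by
      constructor
      · intro a b hab
        exact Subtype.ext (hinj (congrArg Subtype.val hab))
      · rintro ⟨_, m, hm, rfl⟩
        exact ⟨⟨m, hm⟩, rfl⟩
    exact Module.Invertible.congr (LinearEquiv.ofBijective f hf)

end Inf

theorem isLine_twistPts (L : PreLD X B) (hL : L.IsLine) (l : List (X.A →ₐ[k] k)) :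
    (L.twistPts l).IsLine := by
  induction l with
  | nil => exact hL
  | cons y l ih => exact isLine_twistPt _ y ih

theorem isLine_twist (L : PreLD X B) (hL : L.IsLine) (n : ℕ) (l : List (X.A →ₐ[k] k)) :
    ((L.twistInf n).twistPts l).IsLine :=
  isLine_twistPts _ (isLine_twistInf L n hL) l

end Fermat.Agent.JTw
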