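import Fermat.Agent.JTw.Tens

/-!
# S25, block E-e: the trivial line bundle; rigidifications over local rings
-/

set_option autoImplicit false
set_option linter.style.haveILetI false

noncomputable section

universe u

open TensorProduct

namespace Fermat.Agent.JTw

open Fermat.Agent.JPC Fermat.Agent.JGI

variable {k : Type u} [Field k] {X : TwoChart k}

variable (X) in
theorem isLine_triv : (triv X).IsLine where
  inv0 := by
    let one : (triv X).M0' := ⟨(1 : X.A), X.A0.one_mem⟩
    let f : (k ⊗[k] X.A0) →ₗ[k ⊗[k] X.A0] (triv X).M0' :=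
      LinearMap.toSpanSingleton (k ⊗[k] X.A0) (triv X).M0' one
    have hf : ∀ s, (show X.A from (f s).1) =
        ((Algebra.TensorProduct.lid k X.A0 s : X.A0) : X.A) := by
      intro s
      induction s using TensorProduct.induction_on with
      | zero => rw [map_zero, map_zero]; rfl
      | tmul c a =>
        rw [Algebra.TensorProduct.lid_tmul]
        show c • ((a : X.A) * 1) = ((c • a : X.A0) : X.A)
        rw [mul_one]; rfl
      | add x y hx hy =>
        rw [map_add, map_add]
        show (show X.A from (f x).1) + (show X.A from (f y).1) = _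
        rw [hx, hy]; rfl
    have hbij : Function.Bijective f := by
      constructor
      · intro a b hab
        apply (Algebra.TensorProduct.lid k X.A0).injective
        apply Subtype.ext
        exact (hf a).symm.trans ((congrArg (fun z => (show X.A from z.1)) hab).trans (hf b))
      · rintro ⟨x, hx⟩
        refine ⟨(1 : k) ⊗ₜ[k] (⟨x, hx⟩ : X.A0), Subtype.ext ?_⟩
        refine (hf _).trans ?_
        rw [Algebra.TensorProduct.lid_tmul, one_smul]
    exact Module.Invertible.congr (LinearEquiv.ofBijective f hbij)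
  inv1 := by
    let one : (triv X).M1' := ⟨(1 : X.A), X.A1.one_mem⟩
    let f : (k ⊗[k] X.A1) →ₗ[k ⊗[k] X.A1] (triv X).M1' :=
      LinearMap.toSpanSingleton (k ⊗[k] X.A1) (triv X).M1' one
    have hf : ∀ s, (show X.A from (f s).1) =
        ((Algebra.TensorProduct.lid k X.A1 s : X.A1) : X.A) := by
      intro s
      induction s using TensorProduct.induction_on with
      | zero => rw [map_zero, map_zero]; rfl
      | tmul c a =>
        rw [Algebra.TensorProduct.lid_tmul]
        show c • ((a : X.A) * 1) = ((c • a : X.A1) : X.A)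
        rw [mul_one]; rfl
      | add x y hx hy =>
        rw [map_add, map_add]
        show (show X.A from (f x).1) + (show X.A from (f y).1) = _
        rw [hx, hy]; rfl
    have hbij : Function.Bijective f := by
      constructor
      · intro a b hab
        apply (Algebra.TensorProduct.lid k X.A1).injective
        apply Subtype.ext
        exact (hf a).symm.trans ((congrArg (fun z => (show X.A from z.1)) hab).trans (hf b))
      · rintro ⟨x, hx⟩
        refine ⟨(1 : k) ⊗ₜ[k] (⟨x, hx⟩ : X.A1), Subtype.ext ?_⟩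
        refine (hf _).trans ?_
        rw [Algebra.TensorProduct.lid_tmul, one_smul]
    exact Module.Invertible.congr (LinearEquiv.ofBijective f hbij)

theorem isLine_triv_twist (n : ℕ) (l : List (X.A →ₐ[k] k)) :
    (((triv X).twistInf n).twistPts l).IsLine :=
  isLine_twist _ (isLine_triv X) n l

theorem exists_equiv_of_local (B Q : Type*) [CommRing B] [IsLocalRing B] [AddCommGroup Q]
    [Module B Q] [Module.Invertible B Q] : Nonempty (Q ≃ₗ[B] B) :=
  Module.Invertible.free_iff_linearEquiv.mp inferInstance

theorem one_tmul_smul {R B M : Type*} [CommRing R] [CommRing B] [Algebra R B] [AddCommGroup M]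
    [Module R M] (s : R) (m : M) :
    (1 : B) ⊗ₜ[R] (s • m) = (algebraMap R B s) • ((1 : B) ⊗ₜ[R] m) := by
  rw [TensorProduct.tmul_smul, algebraMap_smul]

variable {B : Type u} [CommRing B] [Algebra k B]

variable (X B) in
/-- `b ⊗ a ↦ b a(ε)` -/
def evB : B ⊗[k] X.A0 →ₐ[B] B :=
  Algebra.TensorProduct.lift (AlgHom.id B B) ((Algebra.ofId k B).comp X.ev)
    (fun _ _ => Commute.all _ _)

theorem evB_tmul (b : B) (a : X.A0) : evB X B (b ⊗ₜ a) = b * algebraMap k B (X.ev a) := by
  rw [evB, Algebra.TensorProduct.lift_tmul]; rfl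

/-- **Line bundles over local rings have rigidifications.** -/
theorem nonempty_rig [IsLocalRing B] (L : PreLD X B) (hL : L.IsLine) : Nonempty L.Rig := by
  letI : Algebra (B ⊗[k] X.A0) B := (evB X B).toRingHom.toAlgebra
  have halg : ∀ s, algebraMap (B ⊗[k] X.A0) B s = evB X B s := fun _ => rfl
  haveI := hL.inv0
  have h1 : Module.Invertible B (B ⊗[B ⊗[k] X.A0] L.M0') := inferInstance
  obtain ⟨e⟩ := exists_equiv_of_local B (B ⊗[B ⊗[k] X.A0] L.M0')
  let q : L.M0 → (B ⊗[B ⊗[k] X.A0] L.M0') := fun m =>
    (1 : B) ⊗ₜ[B ⊗[k] X.A0] (show L.M0' from m)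
  have hq : ∀ (s : B ⊗[k] X.A0) (m : L.M0'), (1 : B) ⊗ₜ[B ⊗[k] X.A0] (s • m) =
      evB X B s • ((1 : B) ⊗ₜ[B ⊗[k] X.A0] m) := by
    intro s m
    exact one_tmul_smul s m
  refine ⟨{ lam := { toFun := fun m => e (q m)
                     map_add' := fun a b => ?_
                     map_smul' := fun c a => ?_ }
            smul := fun a m => ?_
            surj := ?_ }⟩
  · rw [← map_add]
    congr 1
    exact TensorProduct.tmul_add _ _ _
  · rw [RingHom.id_apply, ← map_smul]
    congr 1
    have h3 := hq (c ⊗ₜ[k] (1 : X.A0)) (show L.M0' from a)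
    rw [evB_tmul, map_one, map_one, mul_one] at h3
    rw [← h3]
    show (1 : B) ⊗ₜ[B ⊗[k] X.A0] (show L.M0' from c • a) = _
    congr 1
    apply Subtype.ext
    show c • (a : L.M) = (c ⊗ₜ[k] (1 : X.A0)) • (a : L.M)
    rw [PreLD.tmul_smul0]
    show _ = c • ((1 : X.A) • (a : L.M))
    rw [one_smul]
  · show e (q _) = _ * e (q m)
    rw [← smul_eq_mul, ← map_smul]
    congr 1
    have h3 := hq ((1 : B) ⊗ₜ[k] a) (show L.M0' from m)
    rw [evB_tmul, one_mul] at h3
    rw [← h3]
    show (1 : B) ⊗ₜ[B ⊗[k] X.A0] _ = _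
    congr 1
    apply Subtype.ext
    show (a : X.A) • (m : L.M) = ((1 : B) ⊗ₜ[k] a) • (m : L.M)
    rw [PreLD.tmul_smul0, one_smul]
  · intro b
    have hqs : Function.Surjective q := by
      intro z
      induction z using TensorProduct.induction_on with
      | zero => exact ⟨0, TensorProduct.tmul_zero _ _⟩
      | tmul c m =>
        refine ⟨(show L.M0 from (c ⊗ₜ[k] (1 : X.A0)) • m), ?_⟩
        refine (hq (c ⊗ₜ[k] (1 : X.A0)) m).trans ?_
        rw [evB_tmul, map_one, map_one, mul_one, TensorProduct.smul_tmul', smul_eq_mul, mul_one]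
      | add x y hx hy =>
        obtain ⟨m, rfl⟩ := hx
        obtain ⟨n, rfl⟩ := hy
        exact ⟨m + n, TensorProduct.tmul_add _ _ _⟩
    obtain ⟨m, hm⟩ := hqs (e.symm b)
    exact ⟨m, by show e (q m) = b; rw [hm, LinearEquiv.apply_symm_apply]⟩

end Fermat.Agent.JTw
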