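import Fermat.Agent.JTw.Line

/-!
# S25, block E-e: twists are products with line bundles over `k`
-/

set_option autoImplicit false
set_option linter.style.haveILetI false

noncomputable section

universe u

open TensorProduct

namespace Fermat.Agent.JTw

open Fermat.Agent.JPC Fermat.Agent.JGI

variable {k : Type u} [Field k] {X : TwoChart k} {B : Type u} [CommRing B] [Algebra k B]

/-- the multiplication `A × M → M` -/
def muTriv (L : PreLD X B) : X.A →ₗ[k] L.M →ₗ[B] L.M where
  toFun a := L.actA a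
  map_add' a b := map_add _ _ _
  map_smul' c a := by
    ext m
    show (c • a) • m = c • (a • m)
    exact smul_assoc c a m

theorem tensK_triv (L : PreLD X B) : TensK L (triv X) L := by
  refine ⟨muTriv L, ?_, ?_, ?_, ?_⟩
  · intro a n m
    exact mul_smul a (show X.A from n) m
  · intro a n m
    exact smul_comm (show X.A from n) a m
  · apply le_antisymm
    · refine Submodule.span_le.mpr ?_
      rintro _ ⟨n, hn, m, hm, rfl⟩
      exact L.smul0 n hn m hm
    · intro m hm
      exact Submodule.subset_span ⟨(1 : X.A), X.A0.one_mem, m, hm, (one_smul X.A m).symm⟩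
  · apply le_antisymm
    · refine Submodule.span_le.mpr ?_
      rintro _ ⟨n, hn, m, hm, rfl⟩
      exact L.smul1 n hn m hm
    · intro m hm
      exact Submodule.subset_span ⟨(1 : X.A), X.A1.one_mem, m, hm, (one_smul X.A m).symm⟩

theorem TensK.twistInf {L : PreLD X B} {N : PreLD X k} {L' : PreLD X B} (h : TensK L N L')
    (n : ℕ) : TensK L (N.twistInf n) (L'.twistInf n) := by
  obtain ⟨μ, h1, h2, h3, h4⟩ := h
  refine ⟨μ, h1, h2, h3, ?_⟩
  show Submodule.span B {x : L'.M | ∃ z ∈ N.M1.map (N.actA ((X.t : X.A) ^ n)), ∃ m ∈ L.M1,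
    x = μ z m} = L'.M1.map (L'.actA ((X.t : X.A) ^ n))
  rw [← h4, Submodule.map_span]
  congr 1
  ext x
  constructor
  · rintro ⟨_, ⟨z, hz, rfl⟩, m, hm, rfl⟩
    exact ⟨μ z m, ⟨z, hz, m, hm, rfl⟩, (h1 _ _ _).symm⟩
  · rintro ⟨_, ⟨z, hz, m, hm, rfl⟩, rfl⟩
    exact ⟨_, ⟨z, hz, rfl⟩, m, hm, (h1 _ _ _).symm⟩

/-- products with elements of `I·N` -/
theorem mu_mem_mulSub {L : PreLD X B} {N : PreLD X k} {L' : PreLD X B}
    (μ : N.M →ₗ[k] L.M →ₗ[B] L'.M) (h1 : ∀ (a : X.A) (n : N.M) (m : L.M), μ (a • n) m = a • μ n m)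
    (S : Set X.A) (T : Submodule k N.M) (Q : Submodule B L.M) (R : Submodule B L'.M)
    (hR : ∀ n ∈ T, ∀ m ∈ Q, μ n m ∈ R) {n : N.M} (hn : n ∈ N.mulSub S T) {m : L.M} (hm : m ∈ Q) :
    μ n m ∈ L'.mulSub S R := by
  refine Submodule.span_induction (p := fun n _ => μ n m ∈ L'.mulSub S R) ?_ ?_ ?_ ?_ hn
  · rintro _ ⟨a, ha, n, hn, rfl⟩
    rw [h1]
    exact Submodule.subset_span ⟨a, ha, _, hR n hn m hm, rfl⟩
  · rw [map_zero, LinearMap.zero_apply]; exact Submodule.zero_mem _
  · intro x y _ _ hx hy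
    rw [map_add, LinearMap.add_apply]; exact Submodule.add_mem _ hx hy
  · intro c x _ hx
    rw [map_smul, LinearMap.smul_apply, ← algebraMap_smul B c]
    exact Submodule.smul_mem _ _ hx

theorem TensK.twistPt {L : PreLD X B} {N : PreLD X k} {L' : PreLD X B} (h : TensK L N L')
    (y : X.A →ₐ[k] k) : TensK L (N.twistPt y) (L'.twistPt y) := by
  obtain ⟨μ, h1, h2, h3, h4⟩ := h
  have hex : ∀ (n : (N.twistPt y).M) (m : L.M), ∃ z, incl L' y z = μ (incl N y n) m := by
    intro n m
    rw [mem_range_incl]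
    exact mu_mem_mulSub μ h1 _ ⊤ ⊤ ⊤ (fun _ _ _ _ => Submodule.mem_top)
      ((mem_range_incl N y).mp ⟨n, rfl⟩) Submodule.mem_top
  choose ν hν using hex
  have hinj := incl_injective L' y
  let ν' : (N.twistPt y).M →ₗ[k] L.M →ₗ[B] (L'.twistPt y).M :=
    { toFun := fun n =>
        { toFun := ν n
          map_add' := fun a b => hinj (by rw [map_add, hν, hν, hν, map_add])
          map_smul' := fun c a => hinj (by
            rw [RingHom.id_apply, hν, incl_smulB, hν, map_smul]) }
      map_add' := fun a b => by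
        ext m
        apply hinj
        show incl L' y (ν (a + b) m) = incl L' y (ν a m + ν b m)
        rw [map_add, hν, hν, hν, map_add, map_add, LinearMap.add_apply]
      map_smul' := fun c a => by
        ext m
        apply hinj
        show incl L' y (ν (c • a) m) = incl L' y (c • ν a m)
        have e1 : incl N y (c • a) = c • incl N y a := rfl
        have e2 : incl L' y (c • ν a m) = c • incl L' y (ν a m) := rfl
        rw [e2, hν, hν, e1, map_smul, LinearMap.smul_apply] }
  have hν' : ∀ n m, incl L' y (ν' n m) = μ (incl N y n) m := hν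
  have key : ∀ (S : Set X.A) (hS : S ⊆ {a | y a = 0}) (T : Submodule k N.M) (Q : Submodule B L.M)
      (R : Submodule B L'.M), Submodule.span B {x | ∃ n ∈ T, ∃ m ∈ Q, x = μ n m} = R →
      ∀ z : (L'.twistPt y).M,
      z ∈ Submodule.span B {x | ∃ n, incl N y n ∈ N.mulSub S T ∧ ∃ m ∈ Q, x = ν' n m} ↔
        incl L' y z ∈ L'.mulSub S R := by
    intro S hS T Q R hR z
    constructor
    · intro hz
      refine Submodule.span_induction (p := fun z _ => incl L' y z ∈ L'.mulSub S R) ?_ ?_ ?_ ?_ hz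
      · rintro _ ⟨n, hn, m, hm, rfl⟩
        rw [hν']
        exact mu_mem_mulSub μ h1 S T Q R
          (fun n hn m hm => hR ▸ Submodule.subset_span ⟨n, hn, m, hm, rfl⟩) hn hm
      · rw [map_zero]; exact Submodule.zero_mem _
      · intro a b _ _ ha hb; rw [map_add]; exact Submodule.add_mem _ ha hb
      · intro c a _ ha; rw [incl_smulB]; exact Submodule.smul_mem _ _ ha
    · intro hz
      -- every element of `mulSub S R` is the image of an element of the span
      have h5 : ∀ x ∈ L'.mulSub S R, ∃ z ∈ Submodule.span B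
          {x | ∃ n, incl N y n ∈ N.mulSub S T ∧ ∃ m ∈ Q, x = ν' n m}, incl L' y z = x := by
        intro x hx
        refine Submodule.span_induction (p := fun x _ => ∃ z ∈ Submodule.span B
          {x | ∃ n, incl N y n ∈ N.mulSub S T ∧ ∃ m ∈ Q, x = ν' n m}, incl L' y z = x)
          ?_ ?_ ?_ ?_ hx
        · rintro _ ⟨a, ha, r, hr, rfl⟩
          rw [← hR] at hr
          refine Submodule.span_induction (p := fun r _ => ∃ z ∈ Submodule.span B
            {x | ∃ n, incl N y n ∈ N.mulSub S T ∧ ∃ m ∈ Q, x = ν' n m}, incl L' y z = a • r)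
            ?_ ?_ ?_ ?_ hr
          · rintro _ ⟨n, hn, m, hm, rfl⟩
            have h6 : a • n ∈ N.mulSub S T := Submodule.subset_span ⟨a, ha, n, hn, rfl⟩
            obtain ⟨n', hn'⟩ := (mem_range_incl N y).mpr (mulSub_mono N hS le_top h6)
            refine ⟨ν' n' m, Submodule.subset_span ⟨n', by rw [hn']; exact h6, m, hm, rfl⟩, ?_⟩
            rw [hν', hn', h1]
          · exact ⟨0, Submodule.zero_mem _, by rw [map_zero, smul_zero]⟩
          · rintro r s _ _ ⟨z, hz, hz'⟩ ⟨w, hw, hw'⟩
            exact ⟨z + w, Submodule.add_mem _ hz hw, by rw [map_add, hz', hw', smul_add]⟩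
          · rintro c r _ ⟨z, hz, hz'⟩
            exact ⟨c • z, Submodule.smul_mem _ _ hz, by rw [incl_smulB, hz', smul_comm]⟩
        · exact ⟨0, Submodule.zero_mem _, map_zero _⟩
        · rintro r s _ _ ⟨z, hz, hz'⟩ ⟨w, hw, hw'⟩
          exact ⟨z + w, Submodule.add_mem _ hz hw, by rw [map_add, hz', hw']⟩
        · rintro c r _ ⟨z, hz, hz'⟩
          exact ⟨c • z, Submodule.smul_mem _ _ hz, by rw [incl_smulB, hz']⟩
      obtain ⟨w, hw, hw'⟩ := h5 _ hz
      rwa [← hinj hw']
  refine ⟨ν', ?_, ?_, ?_, ?_⟩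
  · intro a n m
    apply hinj
    rw [hν', incl_smulA, incl_smulA, hν', h1]
  · intro a n m
    apply hinj
    rw [hν', incl_smulA, hν', h2]
  · ext z
    rw [mem_twist_M0]
    exact key {a | a ∈ X.A0 ∧ y a = 0} (fun a ha => ha.2) N.M0 L.M0 L'.M0 h3 z
  · ext z
    rw [mem_twist_M1]
    exact key {a | a ∈ X.A1 ∧ y a = 0} (fun a ha => ha.2) N.M1 L.M1 L'.M1 h4 z

theorem TensK.twistPts {L : PreLD X B} {N : PreLD X k} {L' : PreLD X B} (h : TensK L N L')
    (l : List (X.A →ₐ[k] k)) : TensK L (N.twistPts l) (L'.twistPts l) := by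
  induction l with
  | nil => exact h
  | cons y l ih => exact ih.twistPt y

theorem tensK_twist (L : PreLD X B) (n : ℕ) (l : List (X.A →ₐ[k] k)) :
    TensK L (((triv X).twistInf n).twistPts l) ((L.twistInf n).twistPts l) :=
  ((tensK_triv L).twistInf n).twistPts l

/-- **The twist is the product with a line bundle over `k`.** -/
theorem tens_twist (L : PreLD X B) (n : ℕ) (l : List (X.A →ₐ[k] k)) :
    Tens L ((((triv X).twistInf n).twistPts l).baseChange B) ((L.twistInf n).twistPts l) :=
  (tensK_twist L n l).baseChange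

end Fermat.Agent.JTw
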