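import Fermat.Agent.JPC.Chart

/-!
# S25, block E-e: tensor products and twists of line data
-/

set_option autoImplicit false

noncomputable section

universe u

open TensorProduct

namespace Fermat.Agent.JTw

open Fermat.Agent.JPC

variable {k : Type u} [Field k] {X : TwoChart k} {B : Type u} [CommRing B] [Algebra k B]

/-- `L'` is the product of `L` and `N` -/
def Tens (L N L' : PreLD X B) : Prop :=
  ∃ μ : L.M →ₗ[B] N.M →ₗ[B] L'.M,
    (∀ (a : X.A) (m : L.M) (n : N.M), μ (a • m) n = a • μ m n) ∧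
    (∀ (a : X.A) (m : L.M) (n : N.M), μ m (a • n) = a • μ m n) ∧
    Submodule.map₂ μ L.M0 N.M0 = L'.M0 ∧ Submodule.map₂ μ L.M1 N.M1 = L'.M1

variable (X) in
/-- the trivial line datum over `k` -/
def triv : PreLD X k where
  M := X.A
  M0 := Subalgebra.toSubmodule X.A0
  M1 := Subalgebra.toSubmodule X.A1
  smul0 := fun _ ha _ hm => X.A0.mul_mem ha hm
  smul1 := fun _ ha _ hm => X.A1.mul_mem ha hm
  ex0 := X.ex0
  ex1 := X.ex1

/-- product of a line datum over `B` with a line datum over `k` -/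
def TensK (L : PreLD X B) (N : PreLD X k) (L' : PreLD X B) : Prop :=
  ∃ μ : N.M →ₗ[k] L.M →ₗ[B] L'.M,
    (∀ (a : X.A) (n : N.M) (m : L.M), μ (a • n) m = a • μ n m) ∧
    (∀ (a : X.A) (n : N.M) (m : L.M), μ n (a • m) = a • μ n m) ∧
    Submodule.span B {x | ∃ n ∈ N.M0, ∃ m ∈ L.M0, x = μ n m} = L'.M0 ∧
    Submodule.span B {x | ∃ n ∈ N.M1, ∃ m ∈ L.M1, x = μ n m} = L'.M1

/-- pure tensors in the base change -/
def tm (N : PreLD X k) (b : B) (n : N.M) : (N.baseChange B).M := b ⊗ₜ[k] n

theorem bc_induction (N : PreLD X k) {p : (N.baseChange B).M → Prop} (z : (N.baseChange B).M)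
    (zero : p 0) (tmul : ∀ b n, p (tm N b n)) (add : ∀ x y, p x → p y → p (x + y)) : p z :=
  TensorProduct.induction_on (motive := p) z zero tmul add

theorem smul_tm (N : PreLD X k) (a : X.A) (b : B) (n : N.M) : a • tm N b n = tm N b (a • n) := rfl

theorem bc_M0 (N : PreLD X k) : (N.baseChange B).M0 =
    Submodule.span B {x | ∃ n ∈ N.M0, x = tm N (1 : B) n} := by
  rw [PreLD.baseChange_M0, Submodule.baseChange_eq_span]
  show Submodule.span B _ = Submodule.span B _
  congr 1
  ext x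
  constructor
  · rintro ⟨n, hn, rfl⟩; exact ⟨n, hn, rfl⟩
  · rintro ⟨n, hn, rfl⟩; exact ⟨n, hn, rfl⟩

theorem bc_M1 (N : PreLD X k) : (N.baseChange B).M1 =
    Submodule.span B {x | ∃ n ∈ N.M1, x = tm N (1 : B) n} := by
  rw [PreLD.baseChange_M1, Submodule.baseChange_eq_span]
  show Submodule.span B _ = Submodule.span B _
  congr 1
  ext x
  constructor
  · rintro ⟨n, hn, rfl⟩; exact ⟨n, hn, rfl⟩
  · rintro ⟨n, hn, rfl⟩; exact ⟨n, hn, rfl⟩

theorem TensK.baseChange {L : PreLD X B} {N : PreLD X k} {L' : PreLD X B} (h : TensK L N L') :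
    Tens L (N.baseChange B) L' := by
  obtain ⟨μ, h1, h2, h3, h4⟩ := h
  let μ' : (N.baseChange B).M →ₗ[B] L.M →ₗ[B] L'.M := μ.liftBaseChange B
  have hμ' : ∀ (b : B) (n : N.M) (m : L.M), μ' (tm N b n) m = b • μ n m := by
    intro b n m
    show (μ.liftBaseChange B (b ⊗ₜ[k] n)) m = _
    rw [LinearMap.liftBaseChange_tmul]; rfl
  have hmap : ∀ (S : Submodule B L.M) (T : Submodule k N.M),
      Submodule.map₂ μ'.flip S (Submodule.span B {x | ∃ n ∈ T, x = tm N (1 : B) n}) =
        Submodule.span B {x | ∃ n ∈ T, ∃ m ∈ S, x = μ n m} := by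
    intro S T
    conv_lhs => rw [← Submodule.span_eq S]
    rw [Submodule.map₂_span_span]
    congr 1
    ext x
    constructor
    · rintro ⟨m, hm, _, ⟨n, hn, rfl⟩, rfl⟩
      refine ⟨n, hn, m, hm, ?_⟩
      show μ' (tm N 1 n) m = _
      rw [hμ', one_smul]
    · rintro ⟨n, hn, m, hm, rfl⟩
      refine ⟨m, hm, _, ⟨n, hn, rfl⟩, ?_⟩
      show μ' (tm N 1 n) m = _
      rw [hμ', one_smul]
  refine ⟨μ'.flip, ?_, ?_, ?_, ?_⟩
  · intro a m n
    rw [LinearMap.flip_apply, LinearMap.flip_apply]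
    induction n using bc_induction with
    | zero => rw [map_zero, LinearMap.zero_apply, LinearMap.zero_apply, smul_zero]
    | tmul b n => rw [hμ', hμ', h2, smul_comm]
    | add x y hx hy => rw [map_add, LinearMap.add_apply, LinearMap.add_apply, hx, hy, smul_add]
  · intro a m n
    rw [LinearMap.flip_apply, LinearMap.flip_apply]
    induction n using bc_induction with
    | zero => rw [smul_zero, map_zero, LinearMap.zero_apply, smul_zero]
    | tmul b n => rw [smul_tm, hμ', hμ', h1, smul_comm]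
    | add x y hx hy =>
      rw [smul_add, map_add, map_add, LinearMap.add_apply, LinearMap.add_apply, hx, hy, smul_add]
  · rw [bc_M0]
    exact (hmap _ _).trans h3
  · rw [bc_M1]
    exact (hmap _ _).trans h4

end Fermat.Agent.JTw
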